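/-
S25-H1: the Hilbert chart ring `R_β`.   Owner: helper86.

`k` a commutative ring, `B` a commutative `k`-algebra, `β : Fin g → B`.  The functor
`A ↦ {ideals I of A ⊗[k] B such that the classes of 1 ⊗ β j form an A-basis of (A ⊗[k] B) ⧸ I}`
is represented by an explicit `k`-algebra `ChartRing k β`, of finite type if `B` is.
-/
import Mathlib

set_option autoImplicit false

universe u v w

open scoped TensorProduct
open MvPolynomial

namespace Fermat.Agent.S25.Hilb

variable (k : Type u) [CommRing k] {B : Type u} [CommRing B] [Algebra k B] {g : ℕ}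
  (β : Fin g → B)

/-- the defining relations of the chart ring -/
def relSet : Set (MvPolynomial (B × Fin g) k) :=
  {p | (∃ (b b' : B) (j : Fin g), p = X (b + b', j) - X (b, j) - X (b', j)) ∨
    (∃ (c : k) (b : B) (j : Fin g), p = X (c • b, j) - C c * X (b, j)) ∨
    (∃ i j : Fin g, p = X (β i, j) - (if j = i then 1 else 0)) ∨
    (∃ (b b' : B) (j : Fin g), p = X (b * b', j) - ∑ l, X (b', l) * X (b * β l, j))}

/-- The Hilbert chart ring `R_β`. -/
def ChartRing : Type u := MvPolynomial (B × Fin g) k ⧸ Ideal.span (relSet k β)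

noncomputable instance : CommRing (ChartRing k β) :=
  inferInstanceAs (CommRing (MvPolynomial (B × Fin g) k ⧸ Ideal.span (relSet k β)))

noncomputable instance : Algebra k (ChartRing k β) :=
  inferInstanceAs (Algebra k (MvPolynomial (B × Fin g) k ⧸ Ideal.span (relSet k β)))

/-- the quotient map -/
noncomputable def mkₐ : MvPolynomial (B × Fin g) k →ₐ[k] ChartRing k β :=
  Ideal.Quotient.mkₐ k (Ideal.span (relSet k β))

theorem mkₐ_surjective : Function.Surjective (mkₐ k β) :=
  Ideal.Quotient.mkₐ_surjective k _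

theorem mkₐ_eq_zero {p : MvPolynomial (B × Fin g) k} (hp : p ∈ relSet k β) : mkₐ k β p = 0 :=
  Ideal.Quotient.eq_zero_iff_mem.2 (Ideal.subset_span hp)

/-- the generators `X (b, j)` of the chart ring -/
noncomputable def gen (b : B) (j : Fin g) : ChartRing k β := mkₐ k β (X (b, j))

theorem gen_add (b b' : B) (j : Fin g) : gen k β (b + b') j = gen k β b j + gen k β b' j := by
  have h := mkₐ_eq_zero k β (p := X (b + b', j) - X (b, j) - X (b', j)) (Or.inl ⟨b, b', j, rfl⟩)
  rw [map_sub, map_sub, sub_sub, sub_eq_zero] at h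
  exact h

theorem gen_smul (c : k) (b : B) (j : Fin g) : gen k β (c • b) j = c • gen k β b j := by
  have h := mkₐ_eq_zero k β (p := X (c • b, j) - C c * X (b, j)) (Or.inr (Or.inl ⟨c, b, j, rfl⟩))
  rw [map_sub, sub_eq_zero, ← MvPolynomial.smul_eq_C_mul, map_smul] at h
  exact h

theorem gen_basis (i j : Fin g) : gen k β (β i) j = if j = i then 1 else 0 := by
  have h := mkₐ_eq_zero k β (p := X (β i, j) - (if j = i then 1 else 0))
    (Or.inr (Or.inr (Or.inl ⟨i, j, rfl⟩)))
  rw [map_sub, sub_eq_zero] at h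
  rw [gen, h]
  split_ifs <;> simp

theorem gen_mul (b b' : B) (j : Fin g) :
    gen k β (b * b') j = ∑ l, gen k β b' l * gen k β (b * β l) j := by
  have h := mkₐ_eq_zero k β (p := X (b * b', j) - ∑ l, X (b', l) * X (b * β l, j))
    (Or.inr (Or.inr (Or.inr ⟨b, b', j, rfl⟩)))
  rw [map_sub, sub_eq_zero, map_sum] at h
  simpa [gen] using h

variable {k}

/-- A `k`-linear map `ρ : B → A^g` is a *chart map* if `ρ (β i) = e_i` and it is "multiplicative":
it is the coordinate map of a quotient algebra of `A ⊗ B` with basis the classes of the `β i`. -/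
structure IsChartMap {A : Type v} [CommRing A] [Algebra k A] (ρ : B →ₗ[k] (Fin g → A)) : Prop where
  basis : ∀ i, ρ (β i) = Pi.single i 1
  mul : ∀ b b', ρ (b * b') = ∑ l, ρ b' l • ρ (b * β l)

variable (k)

/-- the universal chart map -/
noncomputable def univ : B →ₗ[k] (Fin g → ChartRing k β) where
  toFun b j := gen k β b j
  map_add' b b' := funext fun j => gen_add k β b b' j
  map_smul' c b := funext fun j => gen_smul k β c b j

@[simp] theorem univ_apply (b : B) (j : Fin g) : univ k β b j = gen k β b j := rfl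

theorem isChartMap_univ : IsChartMap β (univ k β) where
  basis i := by
    funext j
    rw [univ_apply, gen_basis, Pi.single_apply]
  mul b b' := by
    funext j
    rw [univ_apply, gen_mul, Finset.sum_apply]
    rfl

variable {k β}

section Hom

variable {A : Type v} [CommRing A] [Algebra k A] {A' : Type w} [CommRing A'] [Algebra k A']

/-- push a chart map forward along an algebra homomorphism -/
noncomputable def pushMap (ψ : A →ₐ[k] A') (ρ : B →ₗ[k] (Fin g → A)) : B →ₗ[k] (Fin g → A') :=
  (ψ.toLinearMap.compLeft (Fin g)).comp ρ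

@[simp] theorem pushMap_apply (ψ : A →ₐ[k] A') (ρ : B →ₗ[k] (Fin g → A)) (b : B) (j : Fin g) :
    pushMap ψ ρ b j = ψ (ρ b j) := rfl

theorem IsChartMap.push {ρ : B →ₗ[k] (Fin g → A)} (hρ : IsChartMap β ρ) (ψ : A →ₐ[k] A') :
    IsChartMap β (pushMap ψ ρ) where
  basis i := by
    funext j
    rw [pushMap_apply, hρ.basis, Pi.single_apply, Pi.single_apply]
    split_ifs <;> simp
  mul b b' := by
    funext j
    rw [pushMap_apply, hρ.mul, Finset.sum_apply, Finset.sum_apply, map_sum]
    simp

/-- the classifying homomorphism of a chart map -/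
noncomputable def lift (ρ : B →ₗ[k] (Fin g → A)) (hρ : IsChartMap β ρ) : ChartRing k β →ₐ[k] A :=
  Ideal.Quotient.liftₐ (Ideal.span (relSet k β)) (aeval fun p : B × Fin g => ρ p.1 p.2) (by
    intro p hp
    have hle : Ideal.span (relSet k β) ≤
        RingHom.ker (aeval fun p : B × Fin g => ρ p.1 p.2 : MvPolynomial (B × Fin g) k →ₐ[k] A) := by
      rw [Ideal.span_le]
      rintro p (⟨b, b', j, rfl⟩ | ⟨c, b, j, rfl⟩ | ⟨i, j, rfl⟩ | ⟨b, b', j, rfl⟩)
      · simp [RingHom.mem_ker]
      · rw [SetLike.mem_coe, RingHom.mem_ker, map_sub, map_mul, aeval_X, aeval_X, aeval_C,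
          map_smul, Pi.smul_apply, Algebra.smul_def, sub_self]
      · rw [SetLike.mem_coe, RingHom.mem_ker, map_sub, aeval_X, hρ.basis, Pi.single_apply]
        split_ifs <;> simp
      · rw [SetLike.mem_coe, RingHom.mem_ker, map_sub, aeval_X, hρ.mul, map_sum,
          Finset.sum_apply, sub_eq_zero]
        refine Finset.sum_congr rfl fun l _ => ?_
        rw [_root_.map_mul (aeval fun p : B × Fin g => ρ p.1 p.2), aeval_X, aeval_X,
          Pi.smul_apply, smul_eq_mul]
    exact hle hp)

@[simp] theorem lift_gen (ρ : B →ₗ[k] (Fin g → A)) (hρ : IsChartMap β ρ) (b : B) (j : Fin g) :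
    lift ρ hρ (gen k β b j) = ρ b j := by
  have : lift ρ hρ (gen k β b j) = aeval (fun p : B × Fin g => ρ p.1 p.2) (X (b, j)) := rfl
  rw [this, aeval_X]

theorem algHom_ext {φ φ' : ChartRing k β →ₐ[k] A}
    (h : ∀ b j, φ (gen k β b j) = φ' (gen k β b j)) : φ = φ' := by
  have : φ.comp (mkₐ k β) = φ'.comp (mkₐ k β) := by
    apply MvPolynomial.algHom_ext
    rintro ⟨b, j⟩
    exact h b j
  ext z
  obtain ⟨p, rfl⟩ := mkₐ_surjective k β z
  exact DFunLike.congr_fun this p

variable (k β A)

/-- **(1)** `ChartRing k β` represents the functor of chart maps. -/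
noncomputable def homEquiv :
    (ChartRing k β →ₐ[k] A) ≃ {ρ : B →ₗ[k] (Fin g → A) // IsChartMap β ρ} where
  toFun φ := ⟨pushMap φ (univ k β), (isChartMap_univ k β).push φ⟩
  invFun ρ := lift ρ.1 ρ.2
  left_inv φ := algHom_ext fun b j => by simp
  right_inv ρ := by
    apply Subtype.ext
    ext b j
    simp

variable {k β A}

@[simp] theorem homEquiv_apply (φ : ChartRing k β →ₐ[k] A) (b : B) (j : Fin g) :
    (homEquiv k β A φ).1 b j = φ (gen k β b j) := rfl

@[simp] theorem homEquiv_symm_gen (ρ : {ρ : B →ₗ[k] (Fin g → A) // IsChartMap β ρ}) (b : B)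
    (j : Fin g) : (homEquiv k β A).symm ρ (gen k β b j) = ρ.1 b j :=
  lift_gen ρ.1 ρ.2 b j

/-- naturality of `homEquiv` -/
theorem homEquiv_comp (ψ : A →ₐ[k] A') (φ : ChartRing k β →ₐ[k] A) :
    (homEquiv k β A' (ψ.comp φ)).1 = pushMap ψ (homEquiv k β A φ).1 := rfl

end Hom

section Ideal

variable {A : Type v} [CommRing A] [Algebra k A]

/-- the `A`-linear extension `A ⊗ B → A^g` of `ρ` -/
noncomputable def ext (ρ : B →ₗ[k] (Fin g → A)) : A ⊗[k] B →ₗ[A] (Fin g → A) :=
  ρ.liftBaseChange A

@[simp] theorem ext_tmul (ρ : B →ₗ[k] (Fin g → A)) (a : A) (b : B) :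
    ext ρ (a ⊗ₜ[k] b) = a • ρ b :=
  LinearMap.liftBaseChange_tmul A ρ a b

variable (A β) in
/-- the map `A^g → A ⊗ B`, `e_j ↦ 1 ⊗ β j` -/
noncomputable def sec : (Fin g → A) →ₗ[A] A ⊗[k] B :=
  Fintype.linearCombination A (fun j => (1 : A) ⊗ₜ[k] β j)

theorem sec_apply (f : Fin g → A) : sec β A f = ∑ j, f j • ((1 : A) ⊗ₜ[k] β j) :=
  Fintype.linearCombination_apply A _ f

theorem ext_sec {ρ : B →ₗ[k] (Fin g → A)} (hρ : IsChartMap β ρ) (f : Fin g → A) :
    ext ρ (sec β A f) = f := by
  rw [sec_apply, map_sum]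
  funext i
  simp [hρ.basis, Pi.single_apply]

theorem ext_mul {ρ : B →ₗ[k] (Fin g → A)} (hρ : IsChartMap β ρ) (r z : A ⊗[k] B) :
    ext ρ (r * z) = ∑ l, ext ρ z l • ext ρ (r * ((1 : A) ⊗ₜ[k] β l)) := by
  induction z using TensorProduct.induction_on with
  | zero => simp
  | add z z' hz hz' =>
    rw [mul_add, map_add, hz, hz', ← Finset.sum_add_distrib]
    refine Finset.sum_congr rfl fun l _ => ?_
    rw [map_add, Pi.add_apply, add_smul]
  | tmul a' b' =>
    induction r using TensorProduct.induction_on with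
    | zero => simp
    | add r r' hr hr' =>
      rw [add_mul, map_add, hr, hr', ← Finset.sum_add_distrib]
      refine Finset.sum_congr rfl fun l _ => ?_
      rw [add_mul, map_add, smul_add]
    | tmul a b =>
      rw [Algebra.TensorProduct.tmul_mul_tmul, ext_tmul, hρ.mul, Finset.smul_sum]
      refine Finset.sum_congr rfl fun l _ => ?_
      rw [Algebra.TensorProduct.tmul_mul_tmul, ext_tmul, ext_tmul, mul_one, Pi.smul_apply,
        smul_smul, smul_smul, smul_eq_mul]
      congr 1
      ring

/-- the ideal attached to a chart map: the kernel of its `A`-linear extension -/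
noncomputable def chartIdeal (ρ : B →ₗ[k] (Fin g → A)) (hρ : IsChartMap β ρ) :
    Ideal (A ⊗[k] B) where
  carrier := {z | ext ρ z = 0}
  add_mem' {z z'} hz hz' := by
    rw [Set.mem_ofPred_eq] at hz hz' ⊢
    rw [map_add, hz, hz', add_zero]
  zero_mem' := map_zero _
  smul_mem' r z hz := by
    rw [Set.mem_ofPred_eq] at hz ⊢
    rw [smul_eq_mul, ext_mul hρ, hz]
    simp

theorem mem_chartIdeal {ρ : B →ₗ[k] (Fin g → A)} {hρ : IsChartMap β ρ} {z : A ⊗[k] B} :
    z ∈ chartIdeal ρ hρ ↔ ext ρ z = 0 := Iff.rfl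

theorem sec_ext_sub_mem {ρ : B →ₗ[k] (Fin g → A)} (hρ : IsChartMap β ρ) (z : A ⊗[k] B) :
    sec β A (ext ρ z) - z ∈ chartIdeal ρ hρ := by
  rw [mem_chartIdeal, map_sub, ext_sec hρ, sub_self]

variable (β) in
/-- the map `A^g → (A ⊗ B) ⧸ I`, `e_j ↦ [1 ⊗ β j]` -/
noncomputable def basisMap (I : Ideal (A ⊗[k] B)) : (Fin g → A) →ₗ[A] (A ⊗[k] B) ⧸ I :=
  (Ideal.Quotient.mkₐ A I).toLinearMap.comp (sec β A)

theorem basisMap_apply (I : Ideal (A ⊗[k] B)) (f : Fin g → A) :
    basisMap β I f = Ideal.Quotient.mk I (sec β A f) := rfl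

theorem mk_smul (I : Ideal (A ⊗[k] B)) (a : A) (z : A ⊗[k] B) :
    Ideal.Quotient.mk I (a • z) = a • Ideal.Quotient.mk I z :=
  (Ideal.Quotient.mkₐ A I).toLinearMap.map_smul a z

theorem basisMap_chartIdeal_bijective {ρ : B →ₗ[k] (Fin g → A)} (hρ : IsChartMap β ρ) :
    Function.Bijective (basisMap β (chartIdeal ρ hρ)) := by
  constructor
  · rw [injective_iff_map_eq_zero]
    intro f hf
    rw [basisMap_apply, Ideal.Quotient.eq_zero_iff_mem, mem_chartIdeal, ext_sec hρ] at hf
    exact hf
  · intro z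
    obtain ⟨z, rfl⟩ := Ideal.Quotient.mk_surjective z
    refine ⟨ext ρ z, ?_⟩
    rw [basisMap_apply, Ideal.Quotient.eq]
    exact sec_ext_sub_mem hρ z

/-- the chart map attached to an ideal `I` such that the `1 ⊗ β j` form a basis modulo `I` -/
noncomputable def mapOfIdeal (I : Ideal (A ⊗[k] B)) (hI : Function.Bijective (basisMap β I)) :
    B →ₗ[k] (Fin g → A) :=
  ((LinearEquiv.ofBijective (basisMap β I) hI).symm.toLinearMap.restrictScalars k).comp
    (((Ideal.Quotient.mkₐ A I).toLinearMap.restrictScalars k).comp (TensorProduct.mk k A B 1))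

theorem basisMap_mapOfIdeal (I : Ideal (A ⊗[k] B)) (hI : Function.Bijective (basisMap β I))
    (b : B) : basisMap β I (mapOfIdeal I hI b) = Ideal.Quotient.mk I ((1 : A) ⊗ₜ[k] b) :=
  (LinearEquiv.ofBijective (basisMap β I) hI).apply_symm_apply _

theorem basisMap_ext_mapOfIdeal (I : Ideal (A ⊗[k] B)) (hI : Function.Bijective (basisMap β I))
    (z : A ⊗[k] B) : basisMap β I (ext (mapOfIdeal I hI) z) = Ideal.Quotient.mk I z := by
  induction z using TensorProduct.induction_on with
  | zero => simp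
  | add z z' hz hz' => rw [map_add, map_add, hz, hz', map_add]
  | tmul a b =>
    rw [ext_tmul, map_smul, basisMap_mapOfIdeal, ← mk_smul, TensorProduct.smul_tmul',
      smul_eq_mul, mul_one]

theorem isChartMap_mapOfIdeal (I : Ideal (A ⊗[k] B)) (hI : Function.Bijective (basisMap β I)) :
    IsChartMap β (mapOfIdeal I hI) where
  basis i := by
    apply hI.1
    rw [basisMap_mapOfIdeal, basisMap_apply, sec_apply]
    simp [Pi.single_apply]
  mul b b' := by
    apply hI.1
    rw [basisMap_mapOfIdeal, map_sum]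
    have h1 : ((1 : A) ⊗ₜ[k] (b * b') : A ⊗[k] B) = (1 ⊗ₜ b) * (1 ⊗ₜ b') := by
      rw [Algebra.TensorProduct.tmul_mul_tmul, one_mul]
    rw [h1, map_mul, ← basisMap_mapOfIdeal I hI b', basisMap_apply, sec_apply, map_sum,
      Finset.mul_sum]
    refine Finset.sum_congr rfl fun l _ => ?_
    rw [mk_smul, mul_smul_comm, ← map_mul, Algebra.TensorProduct.tmul_mul_tmul, one_mul,
      (basisMap β I).map_smul, basisMap_mapOfIdeal]

variable (k β A) in
/-- **(2)** chart maps correspond to ideals `I` of `A ⊗ B` such that the classes of the `1 ⊗ β j`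
form an `A`-basis of the quotient. -/
noncomputable def idealEquiv :
    {ρ : B →ₗ[k] (Fin g → A) // IsChartMap β ρ} ≃
      {I : Ideal (A ⊗[k] B) // Function.Bijective (basisMap β I)} where
  toFun ρ := ⟨chartIdeal ρ.1 ρ.2, basisMap_chartIdeal_bijective ρ.2⟩
  invFun I := ⟨mapOfIdeal I.1 I.2, isChartMap_mapOfIdeal I.1 I.2⟩
  left_inv ρ := by
    apply Subtype.ext
    ext1 b
    apply (basisMap_chartIdeal_bijective ρ.2).1
    rw [basisMap_mapOfIdeal, basisMap_apply, eq_comm, Ideal.Quotient.eq]
    have := sec_ext_sub_mem ρ.2 ((1 : A) ⊗ₜ[k] b)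
    rwa [ext_tmul, one_smul] at this
  right_inv I := by
    apply Subtype.ext
    ext z
    show z ∈ chartIdeal (mapOfIdeal I.1 I.2) (isChartMap_mapOfIdeal I.1 I.2) ↔ z ∈ I.1
    rw [mem_chartIdeal, ← Ideal.Quotient.eq_zero_iff_mem, ← basisMap_ext_mapOfIdeal I.1 I.2 z]
    exact ⟨fun h => by rw [h, map_zero], fun h => I.2.1 (by rw [h, map_zero])⟩

@[simp] theorem idealEquiv_apply (ρ : {ρ : B →ₗ[k] (Fin g → A) // IsChartMap β ρ}) :
    (idealEquiv k β A ρ).1 = chartIdeal ρ.1 ρ.2 := rfl

@[simp] theorem idealEquiv_symm_apply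
    (I : {I : Ideal (A ⊗[k] B) // Function.Bijective (basisMap β I)}) :
    ((idealEquiv k β A).symm I).1 = mapOfIdeal I.1 I.2 := rfl

section Natural

variable {A' : Type w} [CommRing A'] [Algebra k A']

theorem ext_pushMap (ψ : A →ₐ[k] A') (ρ : B →ₗ[k] (Fin g → A)) (z : A ⊗[k] B) (j : Fin g) :
    ext (pushMap ψ ρ) (Algebra.TensorProduct.map ψ (AlgHom.id k B) z) j = ψ (ext ρ z j) := by
  induction z using TensorProduct.induction_on with
  | zero => simp
  | add z z' hz hz' => simp only [map_add, Pi.add_apply, hz, hz']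
  | tmul a b => simp

theorem map_sec (ψ : A →ₐ[k] A') (f : Fin g → A) :
    Algebra.TensorProduct.map ψ (AlgHom.id k B) (sec β A f) = sec β A' (fun j => ψ (f j)) := by
  rw [sec_apply, sec_apply, map_sum]
  refine Finset.sum_congr rfl fun j _ => ?_
  rw [TensorProduct.smul_tmul', TensorProduct.smul_tmul', Algebra.TensorProduct.map_tmul]
  simp

/-- naturality of the ideal attached to a chart map: it commutes with base change -/
theorem chartIdeal_pushMap (ψ : A →ₐ[k] A') {ρ : B →ₗ[k] (Fin g → A)} (hρ : IsChartMap β ρ) :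
    chartIdeal (pushMap ψ ρ) (hρ.push ψ) =
      (chartIdeal ρ hρ).map (Algebra.TensorProduct.map ψ (AlgHom.id k B)) := by
  apply le_antisymm
  · have key : ∀ z' : A' ⊗[k] B, sec β A' (ext (pushMap ψ ρ) z') - z' ∈
        (chartIdeal ρ hρ).map (Algebra.TensorProduct.map ψ (AlgHom.id k B)) := by
      intro z'
      induction z' using TensorProduct.induction_on with
      | zero => simp
      | add z z' hz hz' =>
        rw [map_add, map_add, add_sub_add_comm]
        exact add_mem hz hz'
      | tmul a' b =>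
        have h1 := Ideal.mem_map_of_mem (Algebra.TensorProduct.map ψ (AlgHom.id k B))
          (sec_ext_sub_mem hρ ((1 : A) ⊗ₜ[k] b))
        rw [map_sub, map_sec, ext_tmul, one_smul, Algebra.TensorProduct.map_tmul, map_one,
          AlgHom.id_apply] at h1
        have h2 := Ideal.mul_mem_left _ (a' ⊗ₜ[k] (1 : B)) h1
        have h3 : (a' ⊗ₜ[k] (1 : B)) * (sec β A' (fun j => ψ (ρ b j)) - (1 : A') ⊗ₜ[k] b) =
            sec β A' (ext (pushMap ψ ρ) (a' ⊗ₜ[k] b)) - a' ⊗ₜ[k] b := by
          rw [mul_sub, Algebra.TensorProduct.tmul_mul_tmul, mul_one, one_mul, ext_tmul, map_smul]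
          congr 1
          rw [Algebra.smul_def]
          rfl
        rwa [h3] at h2
    intro z' hz'
    have := key z'
    rw [mem_chartIdeal.1 hz', map_zero, zero_sub] at this
    exact (neg_mem_iff).1 this
  · rw [Ideal.map_le_iff_le_comap]
    intro z hz
    rw [Ideal.mem_comap, mem_chartIdeal]
    funext j
    rw [ext_pushMap, mem_chartIdeal.1 hz]
    simp

end Natural

variable (k β A) in
/-- **(1)+(2)** `ChartRing k β` represents the functor of ideals `I` of `A ⊗ B` such that the
classes of the `1 ⊗ β j` form an `A`-basis of the quotient. -/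
noncomputable def homIdealEquiv :
    (ChartRing k β →ₐ[k] A) ≃ {I : Ideal (A ⊗[k] B) // Function.Bijective (basisMap β I)} :=
  (homEquiv k β A).trans (idealEquiv k β A)

variable (k β) in
/-- the universal ideal -/
noncomputable def univIdeal : Ideal (ChartRing k β ⊗[k] B) :=
  chartIdeal (univ k β) (isChartMap_univ k β)

variable (k β) in
theorem basisMap_univIdeal_bijective : Function.Bijective (basisMap β (univIdeal k β)) :=
  basisMap_chartIdeal_bijective _

theorem homIdealEquiv_apply (φ : ChartRing k β →ₐ[k] A) :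
    (homIdealEquiv k β A φ).1 =
      (univIdeal k β).map (Algebra.TensorProduct.map φ (AlgHom.id k B)) :=
  chartIdeal_pushMap φ (isChartMap_univ k β)

/-- naturality of `homIdealEquiv` -/
theorem homIdealEquiv_comp {A' : Type w} [CommRing A'] [Algebra k A'] (ψ : A →ₐ[k] A')
    (φ : ChartRing k β →ₐ[k] A) :
    (homIdealEquiv k β A' (ψ.comp φ)).1 =
      (homIdealEquiv k β A φ).1.map (Algebra.TensorProduct.map ψ (AlgHom.id k B)) :=
  chartIdeal_pushMap ψ ((isChartMap_univ k β).push φ)

/-- the quotient by a chart ideal is free with basis the classes of the `1 ⊗ β j` -/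
noncomputable def quotEquiv (I : Ideal (A ⊗[k] B)) (hI : Function.Bijective (basisMap β I)) :
    (Fin g → A) ≃ₗ[A] (A ⊗[k] B) ⧸ I :=
  LinearEquiv.ofBijective (basisMap β I) hI

theorem quot_free (I : Ideal (A ⊗[k] B)) (hI : Function.Bijective (basisMap β I)) :
    Module.Free A ((A ⊗[k] B) ⧸ I) :=
  Module.Free.of_equiv (quotEquiv I hI)

theorem quot_finite (I : Ideal (A ⊗[k] B)) (hI : Function.Bijective (basisMap β I)) :
    Module.Finite A ((A ⊗[k] B) ⧸ I) :=
  Module.Finite.equiv (quotEquiv I hI)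

end Ideal

section FiniteType

/-- **(3)** explicit generators: if `B` is generated by `s` as a `k`-algebra then the chart ring is
generated by the `X (1, j)` and the `X (y * β l, j)`, `y ∈ s`. -/
theorem adjoin_gen_eq_top (s : Set B) (hs : Algebra.adjoin k s = ⊤) :
    Algebra.adjoin k ({r | ∃ j, r = gen k β 1 j} ∪
      {r | ∃ y ∈ s, ∃ l j, r = gen k β (y * β l) j}) = (⊤ : Subalgebra k (ChartRing k β)) := by
  set S := Algebra.adjoin k ({r | ∃ j, r = gen k β 1 j} ∪
      {r | ∃ y ∈ s, ∃ l j, r = gen k β (y * β l) j}) with hS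
  -- the submodule of good elements
  let V : Submodule k B :=
    { carrier := {b | ∀ j, gen k β b j ∈ S}
      add_mem' := fun {b b'} hb hb' j => by
        rw [gen_add]
        exact add_mem (hb j) (hb' j)
      zero_mem' := fun j => by
        have : gen k β (0 : B) j = 0 := by
          have := gen_smul k β (0 : k) (0 : B) j
          simpa using this
        rw [this]
        exact zero_mem _
      smul_mem' := fun c b hb j => by
        rw [gen_smul]
        exact S.smul_mem (hb j) c }
  have hV1 : (1 : B) ∈ V := fun j => Algebra.subset_adjoin (Or.inl ⟨j, rfl⟩)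
  -- the subalgebra of multipliers of `V`
  let W : Subalgebra k B :=
    { carrier := {b | ∀ v ∈ V, b * v ∈ V}
      mul_mem' := fun {b b'} hb hb' v hv => by
        rw [mul_assoc]
        exact hb _ (hb' v hv)
      add_mem' := fun {b b'} hb hb' v hv => by
        rw [add_mul]
        exact add_mem (hb v hv) (hb' v hv)
      algebraMap_mem' := fun c v hv => by
        rw [← Algebra.smul_def]
        exact V.smul_mem c hv }
  have hW : Algebra.adjoin k s ≤ W := by
    rw [Algebra.adjoin_le_iff]
    intro y hy v hv j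
    rw [gen_mul]
    exact sum_mem fun l _ => mul_mem (hv l) (Algebra.subset_adjoin (Or.inr ⟨y, hy, l, j, rfl⟩))
  have hall : ∀ b : B, b ∈ V := by
    intro b
    have hb : b ∈ W := hW (hs ▸ Algebra.mem_top)
    simpa using hb 1 hV1
  rw [eq_top_iff]
  intro z _
  obtain ⟨p, rfl⟩ := mkₐ_surjective k β z
  induction p using MvPolynomial.induction_on with
  | C c =>
    rw [← MvPolynomial.algebraMap_eq, AlgHom.commutes]
    exact S.algebraMap_mem c
  | add p q hp hq =>
    rw [map_add]
    exact add_mem (hp Algebra.mem_top) (hq Algebra.mem_top)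
  | mul_X p i hp =>
    rw [map_mul]
    exact mul_mem (hp Algebra.mem_top) (hall i.1 i.2)

theorem finiteType [Algebra.FiniteType k B] : Algebra.FiniteType k (ChartRing k β) := by
  obtain ⟨s, hs⟩ := (Algebra.FiniteType.out : (⊤ : Subalgebra k B).FG)
  refine ⟨Subalgebra.fg_def.2 ⟨_, ?_, adjoin_gen_eq_top (β := β) (s : Set B) hs⟩⟩
  apply Set.Finite.union
  · exact (Set.finite_range fun j => gen k β 1 j).subset (by rintro _ ⟨j, rfl⟩; exact ⟨j, rfl⟩)
  · refine ((s.finite_toSet.prod (Set.finite_univ (α := Fin g × Fin g))).image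
      (fun t : B × (Fin g × Fin g) => gen k β (t.1 * β t.2.1) t.2.2)).subset ?_
    rintro _ ⟨y, hy, l, j, rfl⟩
    exact ⟨(y, (l, j)), ⟨hy, Set.mem_univ _⟩, rfl⟩

end FiniteType

end Fermat.Agent.S25.Hilb
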