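/-
S25 / block H4 (atlas): the locus where the classes of `1 ⊗ β j` form a basis of `(A ⊗ B) ⧸ I`.
Owner: helper86.
-/
import Fermat.Agent.S25.Hilb.Ring
import Fermat.Agent.S25.FiniteModelLemmas

set_option autoImplicit false

universe u

open scoped TensorProduct

namespace Fermat.Agent.S25.Hilb

variable {k : Type u} [CommRing k] {B : Type u} [CommRing B] [Algebra k B] {g : ℕ}
  (β : Fin g → B)
variable {A A' : Type u} [CommRing A] [Algebra k A] [CommRing A'] [Algebra k A']

section Bridge

variable [Algebra A A'] [IsScalarTower k A A']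

/-- the base change map `A ⊗ B → A' ⊗ B` -/
noncomputable abbrev bcMap : A ⊗[k] B →ₐ[k] A' ⊗[k] B :=
  Algebra.TensorProduct.map (IsScalarTower.toAlgHom k A A') (AlgHom.id k B)

theorem cancel_includeRight (z : A ⊗[k] B) :
    Algebra.TensorProduct.cancelBaseChange k A A' A' B
      (Algebra.TensorProduct.includeRight (R := A) (A := A') z) = bcMap z := by
  induction z using TensorProduct.induction_on with
  | zero => simp
  | add x y hx hy => rw [map_add, map_add, hx, hy, map_add]
  | tmul a b =>
    simp [Algebra.smul_def]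

theorem map_bcMap_eq (I : Ideal (A ⊗[k] B)) :
    Ideal.map (bcMap (A := A) (A' := A') (B := B)) I =
      Ideal.map (Algebra.TensorProduct.cancelBaseChange k A A' A' B : _ →+* _)
        (Ideal.map (Algebra.TensorProduct.includeRight (R := A) (A := A')) I) := by
  apply le_antisymm
  · rw [Ideal.map_le_iff_le_comap]
    intro z hz
    rw [Ideal.mem_comap, ← cancel_includeRight]
    exact Ideal.mem_map_of_mem _ (Ideal.mem_map_of_mem _ hz)
  · rw [Ideal.map_le_iff_le_comap, Ideal.map_le_iff_le_comap]
    intro z hz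
    rw [Ideal.mem_comap, Ideal.mem_comap]
    have := cancel_includeRight (A' := A') z
    exact (congrArg (· ∈ Ideal.map (bcMap (A := A) (A' := A') (B := B)) I) this).mpr
      (Ideal.mem_map_of_mem _ hz)

/-- `A' ⊗[A] ((A ⊗ B) ⧸ I) ≃ (A' ⊗ B) ⧸ I (A' ⊗ B)` -/
noncomputable def quotBC (I : Ideal (A ⊗[k] B)) :
    A' ⊗[A] ((A ⊗[k] B) ⧸ I) ≃ₗ[A'] (A' ⊗[k] B) ⧸ I.map (bcMap (A := A) (A' := A') (B := B)) :=
  (Algebra.TensorProduct.tensorQuotientEquiv (R := A) A' (A ⊗[k] B) A' I).toLinearEquiv ≪≫ₗ
    (Ideal.quotientEquivAlg _ _ (Algebra.TensorProduct.cancelBaseChange k A A' A' B)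
      (map_bcMap_eq I)).toLinearEquiv

theorem quotBC_tmul (I : Ideal (A ⊗[k] B)) (a : A') (z : A ⊗[k] B) :
    quotBC (A' := A') I (a ⊗ₜ Ideal.Quotient.mk I z) = a • Ideal.Quotient.mk _ (bcMap z) := by
  have h1 : (a ⊗ₜ[A] Ideal.Quotient.mk I z : A' ⊗[A] ((A ⊗[k] B) ⧸ I)) =
      a • ((1 : A') ⊗ₜ[A] Ideal.Quotient.mk I z) := by
    rw [TensorProduct.smul_tmul', smul_eq_mul, mul_one]
  rw [h1, map_smul]
  congr 1
  change Ideal.quotientEquivAlg _ _ (Algebra.TensorProduct.cancelBaseChange k A A' A' B)
      (map_bcMap_eq I) (Algebra.TensorProduct.tensorQuotientEquiv (R := A) A' (A ⊗[k] B) A' I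
        ((1 : A') ⊗ₜ[A] Ideal.Quotient.mk I z)) = _
  rw [Algebra.TensorProduct.tensorQuotientEquiv_apply_tmul]
  change Ideal.Quotient.mk _ (Algebra.TensorProduct.cancelBaseChange k A A' A' B
    ((1 : A') ⊗ₜ[A] z)) = _
  rw [← cancel_includeRight]
  rfl

theorem quotBC_baseChange (I : Ideal (A ⊗[k] B)) (t : A' ⊗[A] (Fin g → A)) :
    quotBC (A' := A') I ((basisMap β I).baseChange A' t) =
      basisMap β (I.map (bcMap (A := A) (A' := A') (B := B)))
        (TensorProduct.piScalarRight A A' A' (Fin g) t) := by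
  induction t using TensorProduct.induction_on with
  | zero => simp
  | add x y hx hy => rw [map_add, map_add, hx, hy, map_add, map_add]
  | tmul a f =>
    rw [LinearMap.baseChange_tmul, basisMap_apply, quotBC_tmul, map_sec,
      TensorProduct.piScalarRight_apply, TensorProduct.piScalarRightHom_tmul, basisMap_apply,
      ← mk_smul, ← map_smul]
    congr 2
    funext j
    simp [Algebra.smul_def, mul_comm]

theorem bijective_baseChange_basisMap_iff (I : Ideal (A ⊗[k] B)) :
    Function.Bijective ((basisMap β I).baseChange A') ↔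
      Function.Bijective (basisMap β (I.map (bcMap (A := A) (A' := A') (B := B)))) := by
  have h : (quotBC (A' := A') I : _ → _) ∘ ((basisMap β I).baseChange A') =
      (basisMap β (I.map (bcMap (A := A) (A' := A') (B := B)))) ∘
        (TensorProduct.piScalarRight A A' A' (Fin g)) := funext fun t => quotBC_baseChange β I t
  rw [← (quotBC (A' := A') I).bijective.of_comp_iff', h,
    Function.Bijective.of_comp_iff _ (TensorProduct.piScalarRight A A' A' (Fin g)).bijective]

end Bridge

/-- the identity model of a map between finitely generated projective modules -/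
noncomputable def idModel {P Q : Type u} [AddCommGroup P] [Module A P] [AddCommGroup Q] [Module A Q]
    [Module.Finite A P] [Module.Projective A P] [Module.Finite A Q] [Module.Projective A Q]
    (d : P →ₗ[A] Q) : FiniteModel d where
  P0 := P
  P1 := Q
  fin0 := inferInstance
  fin1 := inferInstance
  proj0 := inferInstance
  proj1 := inferInstance
  d := d
  a := LinearMap.id
  b := LinearMap.id
  comm _ := rfl
  a_surj := Function.surjective_id
  b_surj := Function.surjective_id
  ker_inj _ h _ := h
  ker_surj w h := ⟨0, rfl, by rw [map_zero]; exact h.symm⟩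

/-- **The basis locus.**  If `(A ⊗ B) ⧸ I` is finite projective over `A`, the locus where the classes
of the `1 ⊗ β j` form a basis is open and compatible with base change. -/
theorem exists_basis_locus (I : Ideal (A ⊗[k] B)) (hfin : Module.Finite A ((A ⊗[k] B) ⧸ I))
    (hproj : Module.Projective A ((A ⊗[k] B) ⧸ I)) :
    ∃ W : Set (PrimeSpectrum A), IsOpen W ∧
      ∀ (A' : Type u) [CommRing A'] [Algebra k A'] (ψ : A →ₐ[k] A'),
        (∀ p : PrimeSpectrum A', PrimeSpectrum.comap ψ.toRingHom p ∈ W) ↔
          Function.Bijective (basisMap β (I.map (Algebra.TensorProduct.map ψ (AlgHom.id k B)))) := by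
  refine ⟨FiniteModel.bijLocus (basisMap β I), (idModel (basisMap β I)).isOpen_bijLocus, ?_⟩
  intro A' _ _ ψ
  let _ : Algebra A A' := ψ.toRingHom.toAlgebra
  have : IsScalarTower k A A' := IsScalarTower.of_algebraMap_eq fun c => (ψ.commutes c).symm
  have hψ : IsScalarTower.toAlgHom k A A' = ψ := by ext a; rfl
  rw [← hψ, ← bijective_baseChange_basisMap_iff, (idModel (basisMap β I)).bijective_baseChange_iff]
  rfl

end Fermat.Agent.S25.Hilb
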